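/-
S24 package NUMERICS, part 1 (helper46): orbits of a cyclic group versus cycle type.

For a permutation `σ` of a finite set `X`:
* the number of `⟨σ⟩`-orbits is `#cycles + #fixed points`  (`card_quot_add_card_support`);
* `sign σ = (-1) ^ (|X| + #orbits)`                           (`sign_eq_neg_one_pow_card_add`);
* if `σ ^ p = 1`, `p` prime: `p * #orbits = |X| + (p - 1) * #Fix σ`.
Group-action versions for `MulAction.orbitRel.Quotient (Subgroup.zpowers g) X` are provided.
-/
import Mathlib

namespace Fermat.Agent.S24.H46

open Equiv Equiv.Perm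

/-- Two functions with the same kernel on a finset have images of the same size. -/
theorem card_image_eq_of_ker {α β γ : Type*} [DecidableEq β] [DecidableEq γ] (s : Finset α)
    (f : α → β) (f' : α → γ) (h : ∀ x ∈ s, ∀ y ∈ s, f x = f y ↔ f' x = f' y) :
    (s.image f).card = (s.image f').card := by
  classical
  have h1 : ((s.image fun x => (f x, f' x)).image Prod.fst).card
      = (s.image fun x => (f x, f' x)).card := by
    apply Finset.card_image_of_injOn
    intro p hp p' hp' hpp
    simp only [Finset.coe_image, Set.mem_image, Finset.mem_coe] at hp hp'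
    obtain ⟨x, hx, rfl⟩ := hp
    obtain ⟨y, hy, rfl⟩ := hp'
    exact Prod.ext hpp ((h x hx y hy).mp hpp)
  have h2 : ((s.image fun x => (f x, f' x)).image Prod.snd).card
      = (s.image fun x => (f x, f' x)).card := by
    apply Finset.card_image_of_injOn
    intro p hp p' hp' hpp
    simp only [Finset.coe_image, Set.mem_image, Finset.mem_coe] at hp hp'
    obtain ⟨x, hx, rfl⟩ := hp
    obtain ⟨y, hy, rfl⟩ := hp'
    exact Prod.ext ((h x hx y hy).mpr hpp) hpp
  rw [Finset.image_image] at h1 h2
  exact h1.trans h2.symm

section Core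

variable {X Q : Type*} [Fintype X] [DecidableEq X] [Fintype Q] [DecidableEq Q]

/-- If `q : X → Q` is a surjection whose fibres are the cycles (orbits) of `σ`, then
`|Q| = #(nontrivial cycles) + #(fixed points)`, written without subtraction. -/
theorem card_quot_add_card_support (σ : Perm X) (q : X → Q) (hq : Function.Surjective q)
    (h : ∀ x y, q x = q y ↔ σ.SameCycle x y) :
    Fintype.card Q + σ.support.card = Fintype.card X + σ.cycleFactorsFinset.card := by
  classical
  have hun : (Finset.univ : Finset Q) = (σ.supportᶜ).image q ∪ σ.support.image q := by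
    rw [← Finset.image_union, Finset.union_comm, Finset.union_compl,
      Finset.image_univ_of_surjective hq]
  have hdisj : Disjoint ((σ.supportᶜ).image q) (σ.support.image q) := by
    rw [Finset.disjoint_left]
    intro b hb hb'
    obtain ⟨x, hx, rfl⟩ := Finset.mem_image.mp hb
    obtain ⟨y, hy, hxy⟩ := Finset.mem_image.mp hb'
    have hs : σ.SameCycle y x := (h y x).mp hxy
    rw [Finset.mem_compl, Perm.mem_support, not_not] at hx
    rw [Perm.mem_support] at hy
    exact hy (hs.apply_eq_self_iff.mpr hx)
  have hfix : ((σ.supportᶜ).image q).card = Fintype.card X - σ.support.card := by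
    rw [Finset.card_image_of_injOn, Finset.card_compl]
    intro x hx y _ hxy
    have hs := (h x y).mp hxy
    rw [Finset.mem_coe, Finset.mem_compl, Perm.mem_support, not_not] at hx
    exact hs.eq_of_left hx
  have hcyc : (σ.support.image q).card = σ.cycleFactorsFinset.card := by
    rw [card_image_eq_of_ker σ.support q σ.cycleOf (fun x hx y hy => by
      rw [h, sameCycle_iff_cycleOf_eq_of_mem_support hx hy])]
    congr 1
    ext c
    constructor
    · intro hc
      obtain ⟨x, hx, rfl⟩ := Finset.mem_image.mp hc
      exact cycleOf_mem_cycleFactorsFinset_iff.mpr hx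
    · intro hc
      have hcyc : c.IsCycle := (mem_cycleFactorsFinset_iff.mp hc).1
      obtain ⟨a, ha⟩ : c.support.Nonempty := by
        rw [Finset.nonempty_iff_ne_empty, Ne, support_eq_empty_iff]
        exact hcyc.ne_one
      exact Finset.mem_image.mpr
        ⟨a, mem_cycleFactorsFinset_support_le hc ha, (cycle_is_cycleOf ha hc).symm⟩
  have hle : σ.support.card ≤ Fintype.card X := Finset.card_le_univ _
  have hcard := congrArg Finset.card hun
  rw [Finset.card_univ, Finset.card_union_of_disjoint hdisj, hfix, hcyc] at hcard
  omega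

/-- The sign of a permutation in terms of the number of its orbits. -/
theorem sign_eq_neg_one_pow_of_quot (σ : Perm X) (q : X → Q) (hq : Function.Surjective q)
    (h : ∀ x y, q x = q y ↔ σ.SameCycle x y) :
    Perm.sign σ = (-1 : ℤˣ) ^ (Fintype.card X + Fintype.card Q) := by
  have hc := card_quot_add_card_support σ q hq h
  rw [sign_of_cycleType, sum_cycleType]
  have hct : Multiset.card σ.cycleType = σ.cycleFactorsFinset.card := by
    rw [cycleType_def, Multiset.card_map]; rfl
  rw [hct]
  have hle : σ.support.card ≤ Fintype.card X := Finset.card_le_univ _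
  have : Fintype.card X + Fintype.card Q
      = σ.support.card + σ.cycleFactorsFinset.card + 2 * (Fintype.card X - σ.support.card) := by
    omega
  rw [this, pow_add _ (σ.support.card + σ.cycleFactorsFinset.card), pow_mul]
  simp

/-- If `σ ^ p = 1` with `p` prime, every cycle has length `p`, hence
`p * #orbits = |X| + (p - 1) * #(fixed points)`, written without subtraction. -/
theorem prime_mul_card_quot (σ : Perm X) (q : X → Q) (hq : Function.Surjective q)
    (h : ∀ x y, q x = q y ↔ σ.SameCycle x y) {p : ℕ} (hp : p.Prime) (hσ : σ ^ p = 1) :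
    p * Fintype.card Q + (p - 1) * σ.support.card = p * Fintype.card X := by
  have hc := card_quot_add_card_support σ q hq h
  have hct : Multiset.card σ.cycleType = σ.cycleFactorsFinset.card := by
    rw [cycleType_def, Multiset.card_map]; rfl
  have hall : ∀ n ∈ σ.cycleType, n = p := by
    intro n hn
    have h1 : n ∣ p := (dvd_of_mem_cycleType hn).trans (orderOf_dvd_of_pow_eq_one hσ)
    have h2 : 2 ≤ n := two_le_of_mem_cycleType hn
    rcases (Nat.dvd_prime hp).mp h1 with h3 | h3
    · omega
    · exact h3
  have hsum : σ.cycleType.sum = Multiset.card σ.cycleType * p := by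
    rw [Multiset.eq_replicate_card.mpr hall, Multiset.sum_replicate, Multiset.card_replicate,
      smul_eq_mul]
  rw [sum_cycleType, hct] at hsum
  have hle : σ.support.card ≤ Fintype.card X := Finset.card_le_univ _
  have hp1 : 1 ≤ p := hp.one_lt.le
  obtain ⟨p', rfl⟩ : ∃ p', p = p' + 1 := ⟨p - 1, by omega⟩
  simp only [Nat.add_sub_cancel]
  have e1 : (p' + 1) * (Fintype.card Q + σ.support.card)
      = (p' + 1) * (Fintype.card X + σ.cycleFactorsFinset.card) := by rw [hc]
  have e2 : (p' + 1) * σ.cycleFactorsFinset.card = σ.support.card := by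
    rw [hsum]; ring
  nlinarith [e1, e2]

end Core

/-! ### Group-action versions -/

section Action

variable {G X : Type*} [Group G] [MulAction G X]

/-- Two points lie in the same `⟨g⟩`-orbit iff they lie in the same cycle of `toPerm g`. -/
theorem mk_eq_mk_iff_sameCycle (g : G) (x y : X) :
    (Quotient.mk'' x : MulAction.orbitRel.Quotient (Subgroup.zpowers g) X) = Quotient.mk'' y ↔
      (MulAction.toPerm g : Perm X).SameCycle x y := by
  rw [Quotient.eq'', MulAction.orbitRel_apply, MulAction.mem_orbit_iff, sameCycle_comm]
  have hz : ∀ i : ℤ, (MulAction.toPerm g : Perm X) ^ i = MulAction.toPerm (g ^ i) :=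
    fun i => (map_zpow (MulAction.toPermHom G X) g i).symm
  constructor
  · rintro ⟨⟨h, hh⟩, hxy⟩
    obtain ⟨i, rfl⟩ := Subgroup.mem_zpowers_iff.mp hh
    refine ⟨i, ?_⟩
    rw [hz]
    exact hxy
  · rintro ⟨i, hi⟩
    refine ⟨⟨g ^ i, Subgroup.zpow_mem_zpowers g i⟩, ?_⟩
    rw [hz] at hi
    exact hi

variable [Finite X]

/-- The sign of the permutation induced by `g` is `(-1) ^ (|X| + #orbits of ⟨g⟩)`. -/
theorem sign_toPerm [Fintype X] [DecidableEq X] (g : G) :
    Perm.sign (MulAction.toPerm g : Perm X) =
      (-1 : ℤˣ) ^ (Nat.card X + Nat.card (MulAction.orbitRel.Quotient (Subgroup.zpowers g) X)) := by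
  classical
  have := Fintype.ofFinite (MulAction.orbitRel.Quotient (Subgroup.zpowers g) X)
  rw [Nat.card_eq_fintype_card, Nat.card_eq_fintype_card]
  exact sign_eq_neg_one_pow_of_quot _ Quotient.mk'' Quotient.mk''_surjective
    (mk_eq_mk_iff_sameCycle g)

/-- **Parity.** For any two elements `g`, `h` acting on a finite set `X`, the number
`|X| + #orb(g) + #orb(h) + #orb(g * h)` is even. -/
theorem even_card_add_card_orbits (g h : G) :
    Even (Nat.card X + Nat.card (MulAction.orbitRel.Quotient (Subgroup.zpowers g) X)
      + Nat.card (MulAction.orbitRel.Quotient (Subgroup.zpowers h) X)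
      + Nat.card (MulAction.orbitRel.Quotient (Subgroup.zpowers (g * h)) X)) := by
  classical
  have := Fintype.ofFinite X
  have hmul : Perm.sign (MulAction.toPerm (g * h) : Perm X)
      = Perm.sign (MulAction.toPerm g : Perm X) * Perm.sign (MulAction.toPerm h : Perm X) := by
    rw [← map_mul]
    congr 1
    exact map_mul (MulAction.toPermHom G X) g h
  rw [sign_toPerm, sign_toPerm, sign_toPerm, ← pow_add] at hmul
  have hne : (-1 : ℤˣ) ≠ 1 := by decide
  set μ := Nat.card X
  set a := Nat.card (MulAction.orbitRel.Quotient (Subgroup.zpowers g) X)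
  set b := Nat.card (MulAction.orbitRel.Quotient (Subgroup.zpowers h) X)
  set c := Nat.card (MulAction.orbitRel.Quotient (Subgroup.zpowers (g * h)) X)
  have h1 : (-1 : ℤˣ) ^ (μ + c + (μ + a + (μ + b))) = 1 := by
    rw [pow_add, hmul, ← pow_add, ← two_mul, pow_mul]
    simp
  have h2 : Even (μ + c + (μ + a + (μ + b))) := (neg_one_pow_eq_one_iff_even hne).mp h1
  have h3 : μ + c + (μ + a + (μ + b)) = (μ + a + b + c) + 2 * μ := by ring
  rw [h3] at h2
  exact (Nat.even_add.mp h2).mpr (even_two_mul μ)

omit [Finite X] in
/-- The fixed points of `g` are the complement of the support of `toPerm g`. -/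
theorem card_fixedBy_add_card_support [Fintype X] [DecidableEq X] (g : G) :
    Nat.card (MulAction.fixedBy X g) + (MulAction.toPerm g : Perm X).support.card
      = Fintype.card X := by
  classical
  have h1 : Nat.card (MulAction.fixedBy X g) = ((MulAction.toPerm g : Perm X).supportᶜ).card := by
    rw [Nat.card_eq_fintype_card]
    exact Fintype.card_of_subtype _ (fun x => by
      rw [Finset.mem_compl, Perm.mem_support, not_not, MulAction.toPerm_apply,
        MulAction.mem_fixedBy])
  rw [h1, Finset.card_compl]
  have hle : (MulAction.toPerm g : Perm X).support.card ≤ Fintype.card X := Finset.card_le_univ _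
  omega

/-- **Orbit count for elements of prime order.** If `g ^ p` acts trivially (`p` prime), then
`p * #orb(g) = |X| + (p - 1) * #Fix(g)`. -/
theorem prime_mul_card_orbits (g : G) {p : ℕ} (hp : p.Prime) (hg : ∀ x : X, g ^ p • x = x) :
    p * Nat.card (MulAction.orbitRel.Quotient (Subgroup.zpowers g) X)
      = Nat.card X + (p - 1) * Nat.card (MulAction.fixedBy X g) := by
  classical
  have := Fintype.ofFinite X
  have := Fintype.ofFinite (MulAction.orbitRel.Quotient (Subgroup.zpowers g) X)
  have hσ : (MulAction.toPerm g : Perm X) ^ p = 1 := by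
    have hz : (MulAction.toPerm g : Perm X) ^ p = MulAction.toPerm (g ^ p) :=
      (map_pow (MulAction.toPermHom G X) g p).symm
    ext x
    rw [hz]
    exact hg x
  have key := prime_mul_card_quot (MulAction.toPerm g : Perm X) Quotient.mk''
    Quotient.mk''_surjective (mk_eq_mk_iff_sameCycle g) hp hσ
  have hfix := card_fixedBy_add_card_support (X := X) g
  rw [Nat.card_eq_fintype_card, Nat.card_eq_fintype_card]
  have hp1 : 1 ≤ p := hp.one_lt.le
  obtain ⟨p', rfl⟩ : ∃ p', p = p' + 1 := ⟨p - 1, by omega⟩
  simp only [Nat.add_sub_cancel] at key ⊢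
  nlinarith [key, hfix]

theorem two_mul_card_orbits (g : G) (hg : ∀ x : X, g ^ 2 • x = x) :
    2 * Nat.card (MulAction.orbitRel.Quotient (Subgroup.zpowers g) X)
      = Nat.card X + Nat.card (MulAction.fixedBy X g) := by
  have := prime_mul_card_orbits g Nat.prime_two hg
  simpa using this

theorem three_mul_card_orbits (g : G) (hg : ∀ x : X, g ^ 3 • x = x) :
    3 * Nat.card (MulAction.orbitRel.Quotient (Subgroup.zpowers g) X)
      = Nat.card X + 2 * Nat.card (MulAction.fixedBy X g) := by
  have := prime_mul_card_orbits g Nat.prime_three hg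
  simpa using this

end Action

end Fermat.Agent.S24.H46
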