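/-
S24 package NUMERICS, part 2 (helper46): the numerics of the genus formula on
`X = SL(2, ℤ) ⧸ Gamma0 N`, independent of S20's dimension formula.

* `two_mul_card_orb_S`, `three_mul_card_orb_ST` : orbit counts of `S`, `S * T` via `nuTwo`, `nuThree`;
* `even_card_add_orbits` : `|X| + #orb(S) + #orb(T) + #orb(S * T)` is even (signs of permutations);
* `card_orbits_le` : `#orb(S) + #orb(S * T) + #orb(T) ≤ |X| + 2` (from helper72's cocycle bound);
* `exists_genus_nat` : `genusFormula N` is a natural number `g`, with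
  `|X| - #orb(S) - #orb(S * T) - #orb(T) + 2 = 2 g`;
* `genus_of_deg` : the shape used by the degree count of the canonical divisor.
-/
import Fermat.Agent.S24.H46.OrbitSign
import Fermat.Agent.S20.H46.EigenCount
import Fermat.Agent.S20.H77.Index
import Fermat.Agent.S20.H77.FixedPoints
import Fermat.Agent.S20.H77.Cusps
import Fermat.Agent.S21.H72.ParabolicGenus

namespace Fermat.Agent.S24.H46

open CongruenceSubgroup ModularGroup ModularCurve
open scoped MatrixGroups

section Numerics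

variable (N : ℕ) [NeZero N]

/-- **N1a.** `2 * #orb(S) = |X| + ν₂`. -/
theorem two_mul_card_orb_S :
    2 * Nat.card (MulAction.orbitRel.Quotient (Subgroup.zpowers S) (SL(2, ℤ) ⧸ Gamma0 N))
      = Nat.card (SL(2, ℤ) ⧸ Gamma0 N) + nuTwo N := by
  have h := two_mul_card_orbits (X := SL(2, ℤ) ⧸ Gamma0 N) S (S20.H46.S_sq_smul N)
  rw [S20.H77.card_fixedBy_S] at h
  exact h

/-- **N1b.** `3 * #orb(S * T) = |X| + 2 * ν₃`. -/
theorem three_mul_card_orb_ST :
    3 * Nat.card (MulAction.orbitRel.Quotient (Subgroup.zpowers (S * T)) (SL(2, ℤ) ⧸ Gamma0 N))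
      = Nat.card (SL(2, ℤ) ⧸ Gamma0 N) + 2 * nuThree N := by
  have h := three_mul_card_orbits (X := SL(2, ℤ) ⧸ Gamma0 N) (S * T) (S20.H46.ST_cube_smul N)
  rw [S20.H77.card_fixedBy_ST] at h
  exact h

/-- **N2 (parity).** -/
theorem even_card_add_orbits :
    Even (Nat.card (SL(2, ℤ) ⧸ Gamma0 N)
      + Nat.card (MulAction.orbitRel.Quotient (Subgroup.zpowers S) (SL(2, ℤ) ⧸ Gamma0 N))
      + Nat.card (MulAction.orbitRel.Quotient (Subgroup.zpowers T) (SL(2, ℤ) ⧸ Gamma0 N))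
      + Nat.card (MulAction.orbitRel.Quotient (Subgroup.zpowers (S * T)) (SL(2, ℤ) ⧸ Gamma0 N))) :=
  even_card_add_card_orbits (X := SL(2, ℤ) ⧸ Gamma0 N) S T

/-- **N3 (nonnegativity of the genus).** -/
theorem card_orbits_le :
    Nat.card (MulAction.orbitRel.Quotient (Subgroup.zpowers S) (SL(2, ℤ) ⧸ Gamma0 N))
      + Nat.card (MulAction.orbitRel.Quotient (Subgroup.zpowers (S * T)) (SL(2, ℤ) ⧸ Gamma0 N))
      + Nat.card (MulAction.orbitRel.Quotient (Subgroup.zpowers T) (SL(2, ℤ) ⧸ Gamma0 N))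
      ≤ Nat.card (SL(2, ℤ) ⧸ Gamma0 N) + 2 := by
  have h := S21.H72.six_mul_finrank_parabolicHoms_le (Gamma0 N) (S20.H46.neg_one_mem_Gamma0 N)
  have h1 := two_mul_card_orb_S N
  have h2 := three_mul_card_orb_ST N
  rw [S20.H77.card_fixedBy_S, S20.H77.card_fixedBy_ST] at h
  omega

/-- **N4.** The genus formula takes natural-number values: there is `g : ℕ` with
`(g : ℚ) = genusFormula N` and `|X| - #orb(S) - #orb(S * T) - #orb(T) + 2 = 2 * g`. -/
theorem exists_genus_nat :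
    ∃ g : ℕ, (g : ℚ) = genusFormula N ∧
      (Nat.card (SL(2, ℤ) ⧸ Gamma0 N) : ℤ)
        - Nat.card (MulAction.orbitRel.Quotient (Subgroup.zpowers S) (SL(2, ℤ) ⧸ Gamma0 N))
        - Nat.card (MulAction.orbitRel.Quotient (Subgroup.zpowers (S * T)) (SL(2, ℤ) ⧸ Gamma0 N))
        - Nat.card (MulAction.orbitRel.Quotient (Subgroup.zpowers T) (SL(2, ℤ) ⧸ Gamma0 N)) + 2
        = 2 * (g : ℤ) := by
  have h1 := two_mul_card_orb_S N
  have h2 := three_mul_card_orb_ST N
  have h3 := card_orbits_le N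
  have h4 := even_card_add_orbits N
  have hμ := S20.H77.card_quotient_Gamma0 N
  have hc := S20.H77.card_orbits_T N
  set μ := Nat.card (SL(2, ℤ) ⧸ Gamma0 N)
  set a := Nat.card (MulAction.orbitRel.Quotient (Subgroup.zpowers S) (SL(2, ℤ) ⧸ Gamma0 N))
  set b := Nat.card (MulAction.orbitRel.Quotient (Subgroup.zpowers (S * T)) (SL(2, ℤ) ⧸ Gamma0 N))
  set c := Nat.card (MulAction.orbitRel.Quotient (Subgroup.zpowers T) (SL(2, ℤ) ⧸ Gamma0 N))
  obtain ⟨r, hr⟩ := h4
  obtain ⟨g, hg⟩ : ∃ g : ℕ, μ + 2 = a + b + c + 2 * g := ⟨(μ + 2 - (a + b + c)) / 2, by omega⟩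
  refine ⟨g, ?_, by omega⟩
  have e1 : (2 : ℚ) * a = μ + nuTwo N := by exact_mod_cast h1
  have e2 : (3 : ℚ) * b = μ + 2 * nuThree N := by exact_mod_cast h2
  have e3 : (μ : ℚ) + 2 = a + b + c + 2 * g := by exact_mod_cast hg
  have e4 : (μ : ℚ) = dedekindPsi N := by exact_mod_cast hμ
  have e5 : (c : ℚ) = cuspCount N := by exact_mod_cast hc
  rw [genusFormula, ← e4, ← e5]
  linarith

/-- The shape used by the degree count: if `d = (μ - o_S) + (μ - o_ST) - μ - o_T` is the degree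
of the canonical divisor, then `(d + 2).toNat / 2 = genusFormula N`. -/
theorem genus_of_deg (d : ℤ)
    (hd : d = ((Nat.card (SL(2, ℤ) ⧸ Gamma0 N) : ℤ)
        - Nat.card (MulAction.orbitRel.Quotient (Subgroup.zpowers S) (SL(2, ℤ) ⧸ Gamma0 N)))
      + ((Nat.card (SL(2, ℤ) ⧸ Gamma0 N) : ℤ)
        - Nat.card (MulAction.orbitRel.Quotient (Subgroup.zpowers (S * T)) (SL(2, ℤ) ⧸ Gamma0 N)))
      - Nat.card (SL(2, ℤ) ⧸ Gamma0 N)
      - Nat.card (MulAction.orbitRel.Quotient (Subgroup.zpowers T) (SL(2, ℤ) ⧸ Gamma0 N))) :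
    (((d + 2).toNat / 2 : ℕ) : ℚ) = genusFormula N := by
  obtain ⟨g, hg, h2⟩ := exists_genus_nat N
  have : (d + 2).toNat / 2 = g := by omega
  rw [this, hg]

/-- Purely numerical form: `12 g + 3 ν₂ + 4 ν₃ + 6 ν∞ = ψ(N) + 12` for a natural number `g` with
`(g : ℚ) = genusFormula N`. -/
theorem exists_genus_nat' :
    ∃ g : ℕ, (g : ℚ) = genusFormula N ∧
      12 * g + 3 * nuTwo N + 4 * nuThree N + 6 * cuspCount N = dedekindPsi N + 12 := by
  obtain ⟨g, hg, h2⟩ := exists_genus_nat N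
  have h1 := two_mul_card_orb_S N
  have h3 := three_mul_card_orb_ST N
  have hμ := S20.H77.card_quotient_Gamma0 N
  have hc := S20.H77.card_orbits_T N
  exact ⟨g, hg, by omega⟩

end Numerics

end Fermat.Agent.S24.H46
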